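/-
Programme T1B (S44), brick CMP, lemma (CC) (helper64, for helper67 / helper38):
**chart compatibility of the two degeneracy maps** `α = heckeAlphaBar`, `β = heckeBetaBar`
(`X₀(M' p) → X₀(M')`), in the shape consumed by `Cmp38/XLP.xlp_degenOne/Two`.

`L ⊂ ℚ̄` any subfield, `(n, e)` with `hb : BaseHyp n e` (in the application `(4, 8)`), `p` a prime not
dividing `n`, `t' ∈ FK M' L` and `t ∈ FK (M' p) L` the SAME `q`-series `tq L n e` at the two levels.
For every place `w` of `Fbar (M' p)`, with `ψ ∈ {α, β}` and `v = w ∘ ψ` the place below: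

* `hCC0_alpha`, `hCC0_beta` : `cL t'` regular at `v`  ⟹ `cL t` regular at `w`;
* `hCC1_alpha`, `hCC1_beta` : `(cL t')⁻¹` regular at `v` ⟹ `(cL t)⁻¹` regular at `w`.

`α` does not change `q`-series (`alphaBar_cL`), so there the statement is a tautology.  For `β`,
`β (cL t') = cL y` with `y = t(q^p) = heckeBetaBar L M' p t'` (`betaBar_cL`), and `t` is integral over
`L[y]`, `t⁻¹` over `L[y⁻¹]` (`ES/N34/ModEq23.isIntegral_tq`, `isIntegral_inv_tq`); valuation rings are
integrally closed (`Dict59.cL_C0_mem`).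

The integrality proofs `hα`, `hβ` of the two maps are ARBITRARY (instantiate with
`DivNorm27.heckeAlphaBarIntegral_all M' p hp`, `heckeBetaBarIntegral_all M' p hp`).
-/
import Mathlib
import Fermat.Agent.T1.Dict59.DivCalc
import Fermat.Agent.ES.N34.ModEq23

set_option autoImplicit false
set_option linter.unusedSectionVars false
set_option linter.style.haveILetI false
set_option synthInstance.maxHeartbeats 400000
set_option maxHeartbeats 1000000

open HahnSeries AlgebraicCurve ModularCurve IntermediateField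

noncomputable section

namespace Fermat.Agent.T1B.Cmp64

open Fermat.Agent.RED.Interface4 Fermat.Agent.T1.Dict59
open Fermat.Agent.RED.BASE.EtaQuot12 Fermat.Agent.RED.BASE.Hauptmodul12
open Fermat.Agent.ES.N34.ModEq23

/-! ### Membership in the valuation ring of the place below -/

section Generic

variable {K F F' : Type*} [Field K] [Field F] [Field F'] [Algebra K F] [Algebra K F']

/-- `x` is regular at `w ∘ φ` iff `φ x` is regular at `w`. -/
theorem mem_restrictAlong_iff (φ : F →ₐ[K] F') (hφ : φ.toRingHom.IsIntegral) (w : Place K F')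
    (x : F) :
    x ∈ (w.restrictAlong φ hφ).toValuationSubring ↔ φ x ∈ w.toValuationSubring :=
  Iff.rfl

end Generic

variable (M' p : ℕ) [NeZero M'] [NeZero p] [NeZero (M' * p)] {L : IntermediateField ℚ Qbar}

/-! ### The two degeneracy maps on `cL` -/

/-- `α` does not change `q`-series. -/
theorem alphaBar_cL {t' : FK M' L} {t : FK (M' * p) L}
    (h : (t : LaurentSeries L) = (t' : LaurentSeries L)) :
    heckeAlphaBar Qbar M' p (cL M' L t') = cL (M' * p) L t := by
  apply Subtype.ext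
  rw [coe_heckeAlphaBar, coe_cL, coe_cL, h]

/-- `β` is `q ↦ q^p`, over `L` and over `ℚ̄`. -/
theorem betaBar_cL (t' : FK M' L) :
    heckeBetaBar Qbar M' p (cL M' L t') = cL (M' * p) L (heckeBetaBar L M' p t') := by
  apply Subtype.ext
  rw [coe_heckeBetaBar, coe_cL, coe_cL, coe_heckeBetaBar, ModularCurve.coeffMap_qExpand]

/-! ### (CC) for `α` -/

/-- **(CC0) for `α`.** -/
theorem hCC0_alpha (hα : HeckeAlphaBarIntegral Qbar M' p) {t' : FK M' L} {t : FK (M' * p) L}
    (h : (t : LaurentSeries L) = (t' : LaurentSeries L)) (w : Place Qbar (Fbar (M' * p))) :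
    cL M' L t' ∈ (w.restrictAlong (heckeAlphaBar Qbar M' p) hα).toValuationSubring →
      cL (M' * p) L t ∈ w.toValuationSubring := by
  intro hw
  rw [mem_restrictAlong_iff, alphaBar_cL M' p h] at hw
  exact hw

/-- **(CC1) for `α`.** -/
theorem hCC1_alpha (hα : HeckeAlphaBarIntegral Qbar M' p) {t' : FK M' L} {t : FK (M' * p) L}
    (h : (t : LaurentSeries L) = (t' : LaurentSeries L)) (w : Place Qbar (Fbar (M' * p))) :
    (cL M' L t')⁻¹ ∈ (w.restrictAlong (heckeAlphaBar Qbar M' p) hα).toValuationSubring →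
      (cL (M' * p) L t)⁻¹ ∈ w.toValuationSubring := by
  intro hw
  rw [mem_restrictAlong_iff, map_inv₀, alphaBar_cL M' p h] at hw
  exact hw

/-! ### (CC) for `β` -/

variable {n e : ℕ} [NeZero n]

/-- `t` is in the chart `C0` of `y = t(q^p)` at level `M' p`. -/
theorem mem_C0_beta (hb : BaseHyp n e) (hp : p.Prime) (hpn : ¬ p ∣ n) {t' : FK M' L}
    {t : FK (M' * p) L} (ht' : (t' : LaurentSeries L) = tq L n e)
    (ht : (t : LaurentSeries L) = tq L n e) :
    t ∈ C0 (K := L) (heckeBetaBar L M' p t') := by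
  rw [mem_C0_iff]
  refine isIntegral_of_coe_eq L (FK (M' * p) L) ?_ ht (isIntegral_tq L p hb hp hpn)
  rw [coe_heckeBetaBar, ht']

/-- `t⁻¹` is in the chart `C0` of `y⁻¹`. -/
theorem inv_mem_C0_beta (hb : BaseHyp n e) (hp : p.Prime) (hpn : ¬ p ∣ n) {t' : FK M' L}
    {t : FK (M' * p) L} (ht' : (t' : LaurentSeries L) = tq L n e)
    (ht : (t : LaurentSeries L) = tq L n e) :
    t⁻¹ ∈ C0 (K := L) (heckeBetaBar L M' p t')⁻¹ := by
  rw [mem_C0_iff]
  refine isIntegral_of_coe_eq L (FK (M' * p) L) ?_ ?_ (isIntegral_inv_tq L p hb hp hpn)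
  · rw [IntermediateField.coe_inv, coe_heckeBetaBar, ht']
  · rw [IntermediateField.coe_inv, ht]

/-- **(CC0) for `β`.** -/
theorem hCC0_beta (hb : BaseHyp n e) (hp : p.Prime) (hpn : ¬ p ∣ n)
    (hβ : HeckeBetaBarIntegral Qbar M' p) {t' : FK M' L} {t : FK (M' * p) L}
    (ht' : (t' : LaurentSeries L) = tq L n e) (ht : (t : LaurentSeries L) = tq L n e)
    (w : Place Qbar (Fbar (M' * p))) :
    cL M' L t' ∈ (w.restrictAlong (heckeBetaBar Qbar M' p) hβ).toValuationSubring →
      cL (M' * p) L t ∈ w.toValuationSubring := by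
  intro hw
  rw [mem_restrictAlong_iff, betaBar_cL] at hw
  exact cL_C0_mem w hw t (mem_C0_beta M' p hb hp hpn ht' ht)

/-- **(CC1) for `β`.** -/
theorem hCC1_beta (hb : BaseHyp n e) (hp : p.Prime) (hpn : ¬ p ∣ n)
    (hβ : HeckeBetaBarIntegral Qbar M' p) {t' : FK M' L} {t : FK (M' * p) L}
    (ht' : (t' : LaurentSeries L) = tq L n e) (ht : (t : LaurentSeries L) = tq L n e)
    (w : Place Qbar (Fbar (M' * p))) :
    (cL M' L t')⁻¹ ∈ (w.restrictAlong (heckeBetaBar Qbar M' p) hβ).toValuationSubring →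
      (cL (M' * p) L t)⁻¹ ∈ w.toValuationSubring := by
  intro hw
  rw [mem_restrictAlong_iff, map_inv₀, betaBar_cL, ← map_inv₀] at hw
  have h := cL_C0_mem w hw t⁻¹ (inv_mem_C0_beta M' p hb hp hpn ht' ht)
  rwa [map_inv₀] at h

end Fermat.Agent.T1B.Cmp64
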