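/-
Programme T1B (S44), brick CMP, hub plug: **the compatibility hypothesis `hcompat`** of
`Cmp64.NormChart.e01_tnorm / normHom_e01` (and of `Cmp15.cmp_of_dict_model`) for the two degeneracy
maps `ψ = α, β`, from STANDARD chart isomorphisms (helper64, for helper67 / helper15 / helper38).

* `compat_of_stdG` : abstract form.  `ε' : A ⊗[k] B' → F'`, `ε : A ⊗[k] B → F` standard for
  `γ' : B' → F'`, `γ : B → F` (`ChartIso90.IsStdG`), `ψ : F' → F` an `A`-linear ring hom with
  `ψ ∘ γ' = γ ∘ (B' → B)`  ⟹  `ψ (ε' x) = ε ((id ⊗ (B' → B)) x)`.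
* `alpha_cLL`, `beta_cLL` : the degeneracy maps commute with the extension of the constant field
  `cLL : FK M K → FK M L`.
* `compat_of_std` : the same for `ChartIso`s which are `IsStdIso` for `β01' : B01' → FK M' K`,
  `β01 : B01 → FK (M' q) K`, with `ψK`, `ψL` commuting with `cLL`.
* `compat_alpha`, `compat_beta` : `ψ = ModelDefs9.alpha, beta` (as ring homs, `.toRingHom`).

On the hub: `hβ` is `Hub9.MalphaS_α01_coe` / `MbetaS_α01_coe` (`rfl`), the `IsStdIso` facts are those
of the two chart-isomorphism families (source: `Bridge48/HubFam.nodalFamily`'s `hstd`; target: T1A).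
-/
import Mathlib
import Fermat.Agent.T1.ChartIso90
import Fermat.Agent.ES.N34.ModelDefs9

set_option autoImplicit false
set_option linter.unusedSectionVars false
set_option linter.style.haveILetI false
set_option synthInstance.maxHeartbeats 400000
set_option maxHeartbeats 1000000

noncomputable section

open TensorProduct
open scoped Fermat.Agent.Jac.BaseChange75

namespace Fermat.Agent.T1B.Cmp64

open Fermat.Agent.Jac Fermat.Agent.T1.Adapt96 Fermat.Agent.T1.ChartIso90

/-! ### Abstract form -/

section Generic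

universe u v

variable {k : Type u} [CommRing k] {A : Type u} [CommRing A] [Algebra k A]
  {B' B : Type u} [CommRing B'] [CommRing B] [Algebra k B'] [Algebra k B] [Algebra B' B]
  [IsScalarTower k B' B]
  {F' F : Type v} [CommRing F'] [CommRing F] [Algebra A F'] [Algebra A F]

/-- **Compatibility from standardness** (abstract). -/
theorem compat_of_stdG {γ' : B' →+* F'} {γ : B →+* F} {ε' : A ⊗[k] B' →+* F'}
    {ε : A ⊗[k] B →+* F} (h' : IsStdG γ' ε') (h : IsStdG γ ε) (ψ : F' →+* F)
    (hψA : ∀ a : A, ψ (algebraMap A F' a) = algebraMap A F a)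
    (hγ : ∀ b : B', ψ (γ' b) = γ (algebraMap B' B b)) (x : A ⊗[k] B') :
    ψ (ε' x) =
      ε (Algebra.TensorProduct.map (AlgHom.id A A) (IsScalarTower.toAlgHom k B' B) x) := by
  induction x using TensorProduct.induction_on with
  | zero => rw [map_zero, map_zero, map_zero, map_zero]
  | add x y hx hy => rw [map_add, map_add, hx, hy, map_add, map_add]
  | tmul a b =>
    rw [Algebra.TensorProduct.map_tmul, h', h, map_mul, hψA, hγ, AlgHom.coe_id, id,
      IsScalarTower.coe_toAlgHom']

end Generic

/-! ### The degeneracy maps and the extension of constants -/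

section Concrete

open HahnSeries ModularCurve IntermediateField
open Fermat.Agent.RED.Interface4 Fermat.Agent.T1.Dict59 Fermat.Agent.ES.N34.ModelDefs9
open scoped Fermat.Agent.T1.ChartIso90

variable {K L : IntermediateField ℚ Qbar} (M' q : ℕ) [NeZero M'] [NeZero q]

/-- `α` commutes with the extension of constants. -/
theorem alpha_cLL (hle : K ≤ L) (x : FK M' K) :
    alpha L M' q (cLL M' hle x) = cLL (M' * q) hle (alpha K M' q x) := by
  apply Subtype.ext
  rw [coe_alpha, coe_cLL, coe_cLL, coe_alpha]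

/-- `β` commutes with the extension of constants. -/
theorem beta_cLL (hle : K ≤ L) (x : FK M' K) :
    beta L M' q (cLL M' hle x) = cLL (M' * q) hle (beta K M' q x) := by
  apply Subtype.ext
  rw [coe_beta, coe_cLL, coe_cLL, coe_beta, ModularCurve.coeffMap_qExpand]

variable {W B0' B1' B01' B0 B1 B01 : Type} [CommRing W]
  [CommRing B0'] [CommRing B1'] [CommRing B01'] [CommRing B0] [CommRing B1] [CommRing B01]
  [Algebra W B0'] [Algebra W B1'] [Algebra W B01'] [Algebra B0' B01'] [Algebra B1' B01']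
  [IsScalarTower W B0' B01'] [IsScalarTower W B1' B01']
  [Algebra W B0] [Algebra W B1] [Algebra W B01] [Algebra B0 B01] [Algebra B1 B01]
  [IsScalarTower W B0 B01] [IsScalarTower W B1 B01]
  [Algebra B01' B01] [IsScalarTower W B01' B01]
  {c0' : TwoChart W B0' B1' B01'} {c0 : TwoChart W B0 B1 B01} [Algebra W ↥L]
  {β0' : B0' →+* FK M' K} {β1' : B1' →+* FK M' K} {β01' : B01' →+* FK M' K}
  {β0 : B0 →+* FK (M' * q) K} {β1 : B1 →+* FK (M' * q) K} {β01 : B01 →+* FK (M' * q) K}
  {t' : FK M' L} {t : FK (M' * q) L}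
  {E' : ChartIso (c0'.baseChange ↥L) t'} {E : ChartIso (c0.baseChange ↥L) t}

/-- **Compatibility for standard chart isomorphisms**, `ψK`/`ψL` any pair of ring homs commuting
with the extension of constants. -/
theorem compat_of_std {hle : K ≤ L} (hE' : IsStdIso M' hle β0' β1' β01' E')
    (hE : IsStdIso (M' * q) hle β0 β1 β01 E)
    (ψK : FK M' K →+* FK (M' * q) K) (ψL : FK M' L →+* FK (M' * q) L)
    (hψL : ∀ a : ↥L, ψL (algebraMap ↥L (FK M' L) a) = algebraMap ↥L (FK (M' * q) L) a)
    (hψ : ∀ x : FK M' K, ψL (cLL M' hle x) = cLL (M' * q) hle (ψK x))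
    (hβ : ∀ b : B01', β01 (algebraMap B01' B01 b) = ψK (β01' b)) (a : ↥L ⊗[W] B01') :
    ψL (E'.e01 a) =
      E.e01 (Algebra.TensorProduct.map (AlgHom.id ↥L ↥L) (IsScalarTower.toAlgHom W B01' B01) a) :=
  compat_of_stdG hE'.std01 hE.std01 ψL hψL
    (fun b => by
      rw [RingHom.comp_apply, RingHom.comp_apply, hψ, hβ]) a

/-- **`hcompat` for `ψ = α`.** -/
theorem compat_alpha {hle : K ≤ L} (hE' : IsStdIso M' hle β0' β1' β01' E')
    (hE : IsStdIso (M' * q) hle β0 β1 β01 E)
    (hβ : ∀ b : B01', β01 (algebraMap B01' B01 b) = alpha K M' q (β01' b)) (a : ↥L ⊗[W] B01') :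
    (alpha L M' q).toRingHom (E'.e01 a) =
      E.e01 (Algebra.TensorProduct.map (AlgHom.id ↥L ↥L) (IsScalarTower.toAlgHom W B01' B01) a) :=
  compat_of_std M' q hE' hE (alpha K M' q).toRingHom (alpha L M' q).toRingHom
    (fun a => (alpha L M' q).commutes a) (fun x => alpha_cLL M' q hle x) hβ a

/-- **`hcompat` for `ψ = β`.** -/
theorem compat_beta {hle : K ≤ L} (hE' : IsStdIso M' hle β0' β1' β01' E')
    (hE : IsStdIso (M' * q) hle β0 β1 β01 E)
    (hβ : ∀ b : B01', β01 (algebraMap B01' B01 b) = beta K M' q (β01' b)) (a : ↥L ⊗[W] B01') :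
    (beta L M' q).toRingHom (E'.e01 a) =
      E.e01 (Algebra.TensorProduct.map (AlgHom.id ↥L ↥L) (IsScalarTower.toAlgHom W B01' B01) a) :=
  compat_of_std M' q hE' hE (beta K M' q).toRingHom (beta L M' q).toRingHom
    (fun a => (beta L M' q).commutes a) (fun x => beta_cLL M' q hle x) hβ a

end Concrete

end Fermat.Agent.T1B.Cmp64
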