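/-
Programme T1B (S44), brick CMP, hub plug (helper64, for helper67's `Cmp67/Hub.cmp_hub`):
**`hcompat` for standard chart isomorphisms, with an explicit chart morphism `α01 : B01' →ₐ[W] B01`.**

(a) `e01_tmul_one`, `hcompat_of_one_tmul` : generic reduction to pure tensors `1 ⊗ b'`;
(b) `heckeAlphaBar_cLL`, `heckeBetaBar_cLL` : naturality of the degeneracy maps in the field of
    constants;
(c) `hcompat_alpha_of_std`, `hcompat_beta_of_std` : the combination for `IsStdIso` families
    (= the hypotheses `_hcα`, `_hcβ` of `Cmp67/Hub.cmp_hub`).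

Twin of `Cmp64/HubCompat.lean` (which states the same with `[Algebra B01' B01]` and
`IsScalarTower.toAlgHom W B01' B01`, the shape of `Cmp64/NormChart`).
-/
import Mathlib
import Fermat.Agent.T1.ChartIso90
import Fermat.Agent.T1B.Cmp64.HubCompat

set_option autoImplicit false
set_option linter.unusedSectionVars false
set_option linter.style.haveILetI false
set_option synthInstance.maxHeartbeats 400000
set_option maxHeartbeats 1000000

noncomputable section

open TensorProduct
open scoped Fermat.Agent.Jac.BaseChange75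

namespace Fermat.Agent.T1B.Cmp64

open Fermat.Agent.Jac Fermat.Agent.T1.Adapt96 Fermat.Agent.T1.ChartIso90

/-! ### (a) reduction to pure tensors -/

section Generic

universe u v

variable {W L : Type u} [CommRing W] [Field L] [Algebra W L]
  {B0 B1 B01 B0' B1' B01' : Type u} [CommRing B0] [CommRing B1] [CommRing B01]
  [CommRing B0'] [CommRing B1'] [CommRing B01']
  [Algebra W B0] [Algebra W B1] [Algebra W B01] [Algebra W B0'] [Algebra W B1'] [Algebra W B01']
  [Algebra B0 B01] [IsScalarTower W B0 B01] [Algebra B1 B01] [IsScalarTower W B1 B01]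
  [Algebra B0' B01'] [IsScalarTower W B0' B01'] [Algebra B1' B01'] [IsScalarTower W B1' B01']
  {c0 : TwoChart W B0 B1 B01} {c0' : TwoChart W B0' B1' B01'}
  {F F' : Type v} [Field F] [Field F'] [Algebra L F] [Algebra L F'] {t : F} {t' : F'}

/-- every chart isomorphism over `L` is `L`-linear on the overlap chart. -/
theorem e01_tmul_one (E : ChartIso (c0.baseChange L) t) (l : L) :
    E.e01 (l ⊗ₜ[W] (1 : B01)) = algebraMap L F l := by
  have h1 := E.comm0 (l ⊗ₜ[W] (1 : B0))
  rw [Fermat.Agent.Jac.BaseChange75.algebraMap_right_tmul, map_one] at h1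
  rw [h1, ← E.linear0 l, Algebra.TensorProduct.algebraMap_apply, Algebra.algebraMap_self_apply]

/-- **(a)** `hcompat` follows from its instances on the pure tensors `1 ⊗ b'`. -/
theorem hcompat_of_one_tmul (E : ChartIso (c0.baseChange L) t)
    (E' : ChartIso (c0'.baseChange L) t') (ψ : F' →ₐ[L] F) (α01 : B01' →ₐ[W] B01)
    (h : ∀ b' : B01', ψ (E'.e01 ((1 : L) ⊗ₜ[W] b')) = E.e01 ((1 : L) ⊗ₜ[W] α01 b')) :
    ∀ a : L ⊗[W] B01', ψ (E'.e01 a) =
      E.e01 (Algebra.TensorProduct.map (AlgHom.id L L) α01 a) := by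
  intro a
  induction a using TensorProduct.induction_on with
  | zero => rw [map_zero, map_zero, map_zero, map_zero]
  | add x y hx hy => rw [map_add, map_add, hx, hy, map_add, map_add]
  | tmul l b =>
    have h1 : l ⊗ₜ[W] b = (l ⊗ₜ[W] (1 : B01')) * ((1 : L) ⊗ₜ[W] b) := by
      rw [Algebra.TensorProduct.tmul_mul_tmul, mul_one, one_mul]
    have h2 : l ⊗ₜ[W] α01 b = (l ⊗ₜ[W] (1 : B01)) * ((1 : L) ⊗ₜ[W] α01 b) := by
      rw [Algebra.TensorProduct.tmul_mul_tmul, mul_one, one_mul]
    rw [Algebra.TensorProduct.map_tmul, AlgHom.coe_id, id, h2, map_mul, e01_tmul_one, ← h, h1,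
      map_mul, map_mul, e01_tmul_one, AlgHom.commutes]

end Generic

/-! ### (b), (c) the degeneracy maps -/

section Concrete

open HahnSeries ModularCurve IntermediateField
open Fermat.Agent.RED.Interface4 Fermat.Agent.T1.Dict59 Fermat.Agent.ES.N34.ModelDefs9
open scoped Fermat.Agent.T1.ChartIso90

variable {K L : IntermediateField ℚ Qbar} (M' p : ℕ) [NeZero M'] [NeZero p]

/-- **(b)** `α` is natural in the field of constants. -/
theorem heckeAlphaBar_cLL (hle : K ≤ L) (x : FK M' K) :
    heckeAlphaBar (↥L) M' p (cLL M' hle x) = cLL (M' * p) hle (heckeAlphaBar (↥K) M' p x) :=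
  alpha_cLL M' p hle x

/-- **(b)** `β` is natural in the field of constants. -/
theorem heckeBetaBar_cLL (hle : K ≤ L) (x : FK M' K) :
    heckeBetaBar (↥L) M' p (cLL M' hle x) = cLL (M' * p) hle (heckeBetaBar (↥K) M' p x) :=
  beta_cLL M' p hle x

variable {W B0' B1' B01' B0 B1 B01 : Type} [CommRing W]
  [CommRing B0'] [CommRing B1'] [CommRing B01'] [CommRing B0] [CommRing B1] [CommRing B01]
  [Algebra W B0'] [Algebra W B1'] [Algebra W B01'] [Algebra B0' B01'] [Algebra B1' B01']
  [IsScalarTower W B0' B01'] [IsScalarTower W B1' B01']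
  [Algebra W B0] [Algebra W B1] [Algebra W B01] [Algebra B0 B01] [Algebra B1 B01]
  [IsScalarTower W B0 B01] [IsScalarTower W B1 B01]
  {c0' : TwoChart W B0' B1' B01'} {c0 : TwoChart W B0 B1 B01} [Algebra W ↥L]
  {β0' : B0' →+* FK M' K} {β1' : B1' →+* FK M' K} {β01' : B01' →+* FK M' K}
  {β0 : B0 →+* FK (M' * p) K} {β1 : B1 →+* FK (M' * p) K} {β01 : B01 →+* FK (M' * p) K}
  {t' : FK M' L} {t : FK (M' * p) L}
  {E' : ChartIso (c0'.baseChange ↥L) t'} {E : ChartIso (c0.baseChange ↥L) t}

/-- **(c)** `hcompat` for `α` and standard chart isomorphisms. -/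
theorem hcompat_alpha_of_std {hle : K ≤ L} (hE : IsStdIso (M' * p) hle β0 β1 β01 E)
    (hE' : IsStdIso M' hle β0' β1' β01' E') (α01 : B01' →ₐ[W] B01)
    (hα : ∀ b' : B01', β01 (α01 b') = heckeAlphaBar (↥K) M' p (β01' b')) :
    ∀ a : ↥L ⊗[W] B01', heckeAlphaBar (↥L) M' p (E'.e01 a) =
      E.e01 (Algebra.TensorProduct.map (AlgHom.id ↥L ↥L) α01 a) :=
  hcompat_of_one_tmul E E' (heckeAlphaBar (↥L) M' p) α01 fun b' => by
    rw [hE'.std01.one_tmul, hE.std01.one_tmul, RingHom.comp_apply, RingHom.comp_apply,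
      heckeAlphaBar_cLL, hα]

/-- **(c)** `hcompat` for `β` and standard chart isomorphisms. -/
theorem hcompat_beta_of_std {hle : K ≤ L} (hE : IsStdIso (M' * p) hle β0 β1 β01 E)
    (hE' : IsStdIso M' hle β0' β1' β01' E') (α01 : B01' →ₐ[W] B01)
    (hα : ∀ b' : B01', β01 (α01 b') = heckeBetaBar (↥K) M' p (β01' b')) :
    ∀ a : ↥L ⊗[W] B01', heckeBetaBar (↥L) M' p (E'.e01 a) =
      E.e01 (Algebra.TensorProduct.map (AlgHom.id ↥L ↥L) α01 a) :=
  hcompat_of_one_tmul E E' (heckeBetaBar (↥L) M' p) α01 fun b' => by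
    rw [hE'.std01.one_tmul, hE.std01.one_tmul, RingHom.comp_apply, RingHom.comp_apply,
      heckeBetaBar_cLL, hα]

end Concrete

end Fermat.Agent.T1B.Cmp64
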