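/-
Programme T1B (S44), brick CMP, lemma "hNm at `L`-level" (helper64, for helper67 / helper15):
**the tensor-layer norm of the overlap charts is the norm of the function fields.**

`W` a ring, `L` a field over `W`; `c0 : TwoChart W B0 B1 B01`, `c0' : TwoChart W B0' B1' B01'` two-chart
data with `B01` finite projective over `B01'`; `E : ChartIso (c0.baseChange L) t`,
`E' : ChartIso (c0'.baseChange L) t'` chart isomorphisms into fields `F`, `F'` (algebraic over `L[t]`,
`L[t']`), `ψ : F' → F` a field embedding compatible with `id ⊗ (B01' → B01)` on the overlap charts.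
Then, for `u : L ⊗[W] B01`,

* `e01_tnorm`      : `E'.e01 (Norm84.tnorm W L B01' B01 u) = N_{F/F'} (E.e01 u)` (norm along `ψ`);
* `normHom ψ`, `normHom_e01` : the same with the norm as a monoid hom `F →* F'`
  (the shape of `Cmp67.LevelData.hNm`);
* `normAlong_e01`  : the same for `ψ : F' →ₐ[K] F`, norm written `letI := algebraAlong ψ; Algebra.norm F' _`
  (the unfolding of `ES/HECKE/BaseChange19.normAlong ψ _`).

Proof: `Cmp38.map_tnorm_eq_norm` (helper38) with the fraction-field statements
`Cmp67.isFractionRing01` (helper67).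
-/
import Mathlib
import Fermat.Prelude.Def_AlgebraicCurve_Correspondence
import Fermat.Agent.T1B.Cmp38.NormField
import Fermat.Agent.T1B.Cmp67.ChartFrac
import Fermat.Agent.Jac.BaseChange75.Rings

set_option autoImplicit false
set_option linter.unusedSectionVars false
set_option linter.style.haveILetI false
set_option synthInstance.maxHeartbeats 400000
set_option maxHeartbeats 1000000

noncomputable section

namespace Fermat.Agent.T1B.Cmp64

open Fermat.Agent.Jac Fermat.Agent.T1.Adapt96 Fermat.Agent.T1B.Norm84 Fermat.Agent.T1B.Cmp38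
  Fermat.Agent.T1B.Cmp67
open scoped TensorProduct Fermat.Agent.Jac.BaseChange75

universe u v

variable {W L : Type u} [CommRing W] [Field L] [Algebra W L]
  {B0 B1 B01 B0' B1' B01' : Type u} [CommRing B0] [CommRing B1] [CommRing B01]
  [CommRing B0'] [CommRing B1'] [CommRing B01']
  [Algebra W B0] [Algebra W B1] [Algebra W B01] [Algebra W B0'] [Algebra W B1'] [Algebra W B01']
  [Algebra B0 B01] [IsScalarTower W B0 B01] [Algebra B1 B01] [IsScalarTower W B1 B01]
  [Algebra B0' B01'] [IsScalarTower W B0' B01'] [Algebra B1' B01'] [IsScalarTower W B1' B01']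
  [Algebra B01' B01] [IsScalarTower W B01' B01] [Module.Finite B01' B01]
  [Module.Projective B01' B01]
  {c0 : TwoChart W B0 B1 B01} {c0' : TwoChart W B0' B1' B01'}
  {F F' : Type v} [Field F] [Field F'] [Algebra L F] [Algebra L F'] {t : F} {t' : F'}

/-- `id ⊗ (B01' → B01)` is injective as soon as it is compatible with a field embedding through
chart isomorphisms. -/
theorem map_injective_of_compat (E : ChartIso (c0.baseChange L) t)
    (E' : ChartIso (c0'.baseChange L) t') (ψ : F' →+* F)
    (hcompat : ∀ a : L ⊗[W] B01', ψ (E'.e01 a) =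
      E.e01 (Algebra.TensorProduct.map (AlgHom.id L L) (IsScalarTower.toAlgHom W B01' B01) a)) :
    Function.Injective
      (Algebra.TensorProduct.map (AlgHom.id L L) (IsScalarTower.toAlgHom W B01' B01)) := by
  intro a b hab
  apply E'.e01_inj
  apply ψ.injective
  rw [hcompat, hcompat, hab]

/-- **The tensor-layer norm is the norm of the function fields** (norm along `ψ`). -/
theorem e01_tnorm (E : ChartIso (c0.baseChange L) t) (E' : ChartIso (c0'.baseChange L) t')
    (halg : Algebra.IsAlgebraic (Algebra.adjoin L {t}) F)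
    (halg' : Algebra.IsAlgebraic (Algebra.adjoin L {t'}) F') (ψ : F' →+* F)
    (hcompat : ∀ a : L ⊗[W] B01', ψ (E'.e01 a) =
      E.e01 (Algebra.TensorProduct.map (AlgHom.id L L) (IsScalarTower.toAlgHom W B01' B01) a))
    (u : L ⊗[W] B01) :
    E'.e01 (tnorm W L B01' B01 u) = (letI := ψ.toAlgebra; Algebra.norm F' (E.e01 u)) := by
  letI : Algebra F' F := ψ.toAlgebra
  haveI : IsDomain (L ⊗[W] B01) := E.e01_inj.isDomain _
  exact map_tnorm_eq_norm W L B01' B01 (map_injective_of_compat E E' ψ hcompat) E'.e01 E.e01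
    (isFractionRing01 E' halg') (isFractionRing01 E halg) hcompat u

/-- The field norm along an embedding `ψ : F' → F`, as a monoid hom. -/
def normHom (ψ : F' →+* F) : F →* F' :=
  letI := ψ.toAlgebra
  Algebra.norm F'

theorem normHom_apply (ψ : F' →+* F) (x : F) :
    normHom ψ x = (letI := ψ.toAlgebra; Algebra.norm F' x) := rfl

/-- **Monoid-hom form** (the shape of `Cmp67.LevelData.hNm`). -/
theorem normHom_e01 (E : ChartIso (c0.baseChange L) t) (E' : ChartIso (c0'.baseChange L) t')
    (halg : Algebra.IsAlgebraic (Algebra.adjoin L {t}) F)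
    (halg' : Algebra.IsAlgebraic (Algebra.adjoin L {t'}) F') (ψ : F' →+* F)
    (hcompat : ∀ a : L ⊗[W] B01', ψ (E'.e01 a) =
      E.e01 (Algebra.TensorProduct.map (AlgHom.id L L) (IsScalarTower.toAlgHom W B01' B01) a))
    (u : L ⊗[W] B01) :
    normHom ψ (E.e01 u) = E'.e01 (tnorm W L B01' B01 u) :=
  (e01_tnorm E E' halg halg' ψ hcompat u).symm

/-- **`normAlong` form**: `ψ` an algebra map over any base field `K`; the left-hand side is the
unfolding of `ES/HECKE/BaseChange19.normAlong ψ (E.e01 u)`. -/
theorem normAlong_e01 {K : Type*} [Field K] [Algebra K F] [Algebra K F']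
    (E : ChartIso (c0.baseChange L) t) (E' : ChartIso (c0'.baseChange L) t')
    (halg : Algebra.IsAlgebraic (Algebra.adjoin L {t}) F)
    (halg' : Algebra.IsAlgebraic (Algebra.adjoin L {t'}) F') (ψ : F' →ₐ[K] F)
    (hcompat : ∀ a : L ⊗[W] B01', ψ (E'.e01 a) =
      E.e01 (Algebra.TensorProduct.map (AlgHom.id L L) (IsScalarTower.toAlgHom W B01' B01) a))
    (u : L ⊗[W] B01) :
    (letI := AlgebraicCurve.algebraAlong ψ; Algebra.norm F' (E.e01 u)) =
      E'.e01 (tnorm W L B01' B01 u) :=
  (e01_tnorm E E' halg halg' ψ.toRingHom hcompat u).symm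

end Fermat.Agent.T1B.Cmp64
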